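/-
LR node [NEW], part 1 (function level): `U_q² = 1` on the `q`-new space.

For a weight-2 `Γ₀(Nq)`-invariant function `g` on the upper half plane (`q ∤ N` prime), with the
coset representatives `lrm_rInf`, `lrm_rZero` of `LR/MTX/Level.lean`:

* `trA g := ∑ₓ g ∣[2] r∞ₓ`                     (trace along `Γ₀(Nq) ⊆ Γ₀(N)`),
* `trB g := ∑ₓ (g ∣[2] diag(1,q)) ∣[2] r0ₓ`     (trace along `β`),
* `W := diag(1,q) · r0_∞`                       (an Atkin–Lehner matrix, `det W = q`),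

we prove `trA g = g + U_q (g ∣ W)`, `trB g = g ∣ W + U_q g`, hence
`trA g = 0 → trB g = 0 → U_q (U_q g) = g`.
Prefix `lrnew_`.
-/
import Fermat.Agent.LR.MTX.Level

set_option autoImplicit false

noncomputable section

open CongruenceSubgroup Matrix.SpecialLinearGroup UpperHalfPlane
open P2MW.S_ModularForm_heckeT_slash_eq_self_of_mem_Gamma0.ModularForm.HeckeSlashInvariance
open scoped MatrixGroups OnePoint ModularForm
open Fermat.Agent.JT3 ModularForm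

namespace Fermat.Agent.LR

/-- weight-2 slash is insensitive to positive scalar multiples of the matrix -/
theorem lrnew_slash_eq_of_smul (f : ℍ → ℂ) {A B : GL (Fin 2) ℝ} {c : ℝ} (hc : 0 < c)
    (hB : 0 < B.det.val) (h : ∀ i j, A i j = c * B i j) :
    f ∣[(2 : ℤ)] A = f ∣[(2 : ℤ)] B := by
  have hdet : A.det.val = c ^ 2 * B.det.val := by
    rw [Matrix.GeneralLinearGroup.val_det_apply, Matrix.GeneralLinearGroup.val_det_apply,
      Matrix.det_fin_two, Matrix.det_fin_two]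
    simp only [h]
    ring
  have hA : 0 < A.det.val := by rw [hdet]; positivity
  ext τ
  have hden : denom A τ = c * denom B τ := by
    simp only [denom, h]
    push_cast
    ring
  have hnum : num A τ = c * num B τ := by
    simp only [num, h]
    push_cast
    ring
  have hc' : (c : ℂ) ≠ 0 := by exact_mod_cast hc.ne'
  have hsm : A • τ = B • τ := by
    apply UpperHalfPlane.ext
    rw [coe_smul_of_det_pos hA, coe_smul_of_det_pos hB, hden, hnum]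
    rw [mul_div_mul_left _ _ hc']
  rw [ModularForm.slash_apply, ModularForm.slash_apply, hsm, hden, hdet]
  have hσA : σ A = .refl ℝ ℂ := by rw [σ, if_pos hA]
  have hσB : σ B = .refl ℝ ℂ := by rw [σ, if_pos hB]
  rw [hσA, hσB]
  have hd0 : denom B τ ≠ 0 := denom_ne_zero B τ
  rw [abs_of_pos (by positivity : 0 < c ^ 2 * B.det.val), abs_of_pos hB]
  simp only [Int.reduceSub, zpow_one, Int.reduceNeg]
  rw [mul_zpow]
  push_cast
  field_simp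

variable {N : ℕ} {q : ℕ} [Fact q.Prime]

/-- weight-2 invariance under `Γ₀(M)` (as a subgroup of `GL₂(ℝ)`) -/
def lrnew_Inv (M : ℕ) (g : ℍ → ℂ) : Prop :=
  ∀ γ ∈ (Gamma0 M : Subgroup (GL (Fin 2) ℝ)), g ∣[(2 : ℤ)] γ = g

theorem lrnew_Inv.slash_mapGL {M : ℕ} {g : ℍ → ℂ} (hg : lrnew_Inv M g) {γ : SL(2, ℤ)}
    (hγ : γ ∈ Gamma0 M) : g ∣[(2 : ℤ)] (mapGL ℝ γ) = g :=
  hg _ (Subgroup.mem_map_of_mem (mapGL ℝ) hγ)

/-- the trace along `Γ₀(Nq) ⊆ Γ₀(N)`, on functions -/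
def lrnew_trA (hqN : ¬ q ∣ N) (g : ℍ → ℂ) : ℍ → ℂ :=
  ∑ x : OnePoint (ZMod q), g ∣[(2 : ℤ)] (mapGL ℝ ((lrm_rInf hqN x : Gamma0 N) : SL(2, ℤ)))

/-- the trace along `β`, on functions -/
def lrnew_trB (hqN : ¬ q ∣ N) (g : ℍ → ℂ) : ℍ → ℂ :=
  ∑ x : OnePoint (ZMod q), (g ∣[(2 : ℤ)] heckeMatrix q 0) ∣[(2 : ℤ)]
    (mapGL ℝ ((lrm_rZero hqN x : Gamma0 N) : SL(2, ℤ)))

/-- the Atkin–Lehner matrix `W = diag(1, q) · r0_∞` -/
def lrnew_W (hqN : ¬ q ∣ N) : GL (Fin 2) ℝ :=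
  heckeMatrix q 0 * mapGL ℝ ((lrm_rZero hqN ∞ : Gamma0 N) : SL(2, ℤ))

/-- two elements of `Γ₀(N)` moving `∞` to the same point differ by `Γ₀(Nq)` on the left -/
theorem lrnew_slash_eq_of_act_infty (hqN : ¬ q ∣ N) {g : ℍ → ℂ} (hg : lrnew_Inv (N * q) g)
    (γ₁ γ₂ : Gamma0 N)
    (h : (lrm_data hqN).act γ₁ ∞ = (lrm_data hqN).act γ₂ ∞) :
    g ∣[(2 : ℤ)] (mapGL ℝ (γ₁ : SL(2, ℤ))) = g ∣[(2 : ℤ)] (mapGL ℝ (γ₂ : SL(2, ℤ))) := by
  have h1 : (lrm_data hqN).act (γ₁ * γ₂⁻¹) ∞ = ∞ := by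
    rw [(lrm_data hqN).act_mul, h, lrt_act_inv]
  have h2 : (q : ℤ) ∣ ((γ₁ * γ₂⁻¹ : Gamma0 N) : SL(2, ℤ)) 1 0 := (lrm_act_infty _).mp h1
  have h3 : ((γ₁ * γ₂⁻¹ : Gamma0 N) : SL(2, ℤ)) ∈ Gamma0 (N * q) :=
    lrm_mem_of_dvd_dvd hqN (t2c_dvd_of_mem (γ₁ * γ₂⁻¹ : Gamma0 N).2) h2
  have h4 : (γ₁ : SL(2, ℤ)) = ((γ₁ * γ₂⁻¹ : Gamma0 N) : SL(2, ℤ)) * (γ₂ : SL(2, ℤ)) := by
    rw [← Subgroup.coe_mul, inv_mul_cancel_right]
  rw [h4, map_mul, SlashAction.slash_mul, hg.slash_mapGL h3]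

/-- the cocycle at the base point `0`, for an element moving `0` to a finite point `j`,
lies in `Γ₀(Nq)` -/
theorem lrnew_coc_zero_mem (hqN : ¬ q ∣ N) (γ : Gamma0 N) (j : ZMod q)
    (hj : (lrm_data hqN).act γ ((0 : ZMod q) : OnePoint (ZMod q)) = (j : OnePoint (ZMod q))) :
    ((t2c_coc hqN ((0 : ZMod q) : OnePoint (ZMod q)) γ : Gamma0 N) : SL(2, ℤ)) ∈ Gamma0 (N * q) := by
  have hq : q ≠ 0 := (Fact.out : q.Prime).ne_zero
  have h := t2c_coc_spec hqN ((0 : ZMod q) : OnePoint (ZMod q)) γ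
  have hj' : t2c_act (γ : SL(2, ℤ)) ((0 : ZMod q) : OnePoint (ZMod q)) = (j : OnePoint (ZMod q)) := hj
  rw [hj', lrm_heckeRep_zero, heckeRep_coe] at h
  have e10 := congrArg (fun M : GL (Fin 2) ℝ => (M : Matrix (Fin 2) (Fin 2) ℝ) 1 0) h
  simp [hq, Matrix.mul_apply, Fin.sum_univ_two] at e10
  have e : ((t2c_coc hqN ((0 : ZMod q) : OnePoint (ZMod q)) γ : Gamma0 N) : SL(2, ℤ)) 1 0 =
      q * (γ : SL(2, ℤ)) 1 0 := by
    exact_mod_cast e10.symm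
  refine lrm_mem_of_dvd_dvd hqN (t2c_dvd_of_mem (t2c_coc hqN _ γ).2) ?_
  rw [e]
  exact dvd_mul_right _ _

/-- **(II)** `trB g = g ∣ W + U_q g` -/
theorem lrnew_trB_eq (hqN : ¬ q ∣ N) {g : ℍ → ℂ} (hg : lrnew_Inv (N * q) g) :
    lrnew_trB hqN g = g ∣[(2 : ℤ)] lrnew_W hqN + heckeU 2 q g := by
  rw [lrnew_trB, heckeU_eq_sum_zmod]
  rw [show (∑ x : OnePoint (ZMod q), (g ∣[(2 : ℤ)] heckeMatrix q 0) ∣[(2 : ℤ)]
      (mapGL ℝ ((lrm_rZero hqN x : Gamma0 N) : SL(2, ℤ)))) =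
      (g ∣[(2 : ℤ)] heckeMatrix q 0) ∣[(2 : ℤ)] (mapGL ℝ ((lrm_rZero hqN ∞ : Gamma0 N) : SL(2, ℤ))) +
      ∑ j : ZMod q, (g ∣[(2 : ℤ)] heckeMatrix q 0) ∣[(2 : ℤ)]
        (mapGL ℝ ((lrm_rZero hqN (j : OnePoint (ZMod q)) : Gamma0 N) : SL(2, ℤ))) from
    Fintype.sum_option (fun x : OnePoint (ZMod q) => (g ∣[(2 : ℤ)] heckeMatrix q 0) ∣[(2 : ℤ)]
      (mapGL ℝ ((lrm_rZero hqN x : Gamma0 N) : SL(2, ℤ))))]
  congr 1
  · rw [lrnew_W, SlashAction.slash_mul]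
  · refine Finset.sum_congr rfl fun j _ => ?_
    have hspec := t2c_coc_spec hqN ((0 : ZMod q) : OnePoint (ZMod q)) (lrm_rZero hqN (j : OnePoint (ZMod q)))
    have hact : t2c_act ((lrm_rZero hqN (j : OnePoint (ZMod q)) : Gamma0 N) : SL(2, ℤ))
        ((0 : ZMod q) : OnePoint (ZMod q)) = (j : OnePoint (ZMod q)) := lrm_rZero_spec hqN _
    rw [hact, lrm_heckeRep_zero, heckeRep_coe] at hspec
    rw [← SlashAction.slash_mul, hspec, SlashAction.slash_mul,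
      hg.slash_mapGL (lrnew_coc_zero_mem hqN _ j (lrm_rZero_spec hqN _))]

/-- the translation `[[1, n], [0, 1]] ∈ Γ₀(N)` -/
def lrnew_t (N : ℕ) (n : ℤ) : Gamma0 N :=
  ⟨⟨!![1, n; 0, 1], by rw [Matrix.det_fin_two_of]; ring⟩,
    t2c_mem_of_dvd (by show (N : ℤ) ∣ (0 : ℤ); exact dvd_zero _)⟩

theorem lrnew_act_t (hqN : ¬ q ∣ N) (n : ℤ) :
    (lrm_data hqN).act (lrnew_t N n) ((0 : ZMod q) : OnePoint (ZMod q)) =
      (((n : ℤ) : ZMod q) : OnePoint (ZMod q)) := by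
  show t2c_act ((lrnew_t N n : Gamma0 N) : SL(2, ℤ)) ((0 : ZMod q) : OnePoint (ZMod q)) = _
  rw [t2c_act, OnePoint.smul_some_eq_ite, redMatrix_apply_one_zero, redMatrix_apply_one_one,
    redMatrix_apply_zero_zero, redMatrix_apply_zero_one, mul_zero, zero_add, mul_zero, zero_add]
  have h00 : ((((lrnew_t N n : Gamma0 N) : SL(2, ℤ)) 0 0 : ℤ) : ZMod q) = 1 := by
    show (((1 : ℤ)) : ZMod q) = 1
    simp
  have h01 : ((((lrnew_t N n : Gamma0 N) : SL(2, ℤ)) 0 1 : ℤ) : ZMod q) = ((n : ℤ) : ZMod q) := rfl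
  rw [h00, h01, if_neg one_ne_zero, div_one]

/-- the cocycle `c₀` of `r0_∞` at the base point `0`: `diag(1,q) · r0_∞ = c₀ · diag(q,1)` -/
def lrnew_c0 (hqN : ¬ q ∣ N) : Gamma0 N :=
  t2c_coc hqN ((0 : ZMod q) : OnePoint (ZMod q)) (lrm_rZero hqN ∞)

theorem lrnew_W_eq (hqN : ¬ q ∣ N) :
    lrnew_W hqN = mapGL ℝ ((lrnew_c0 hqN : Gamma0 N) : SL(2, ℤ)) * heckeDiagMatrix q := by
  have hspec := t2c_coc_spec hqN ((0 : ZMod q) : OnePoint (ZMod q)) (lrm_rZero hqN ∞)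
  have hact : t2c_act ((lrm_rZero hqN (∞ : OnePoint (ZMod q)) : Gamma0 N) : SL(2, ℤ))
      ((0 : ZMod q) : OnePoint (ZMod q)) = ∞ := lrm_rZero_spec hqN _
  rw [hact, lrm_heckeRep_zero, heckeRep_infty] at hspec
  exact hspec

theorem lrnew_act_c0 (hqN : ¬ q ∣ N) :
    (lrm_data hqN).act (lrnew_c0 hqN) ∞ = ((0 : ZMod q) : OnePoint (ZMod q)) := by
  have hq : q ≠ 0 := (Fact.out : q.Prime).ne_zero
  have hqR : (q : ℝ) ≠ 0 := by exact_mod_cast hq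
  set s : SL(2, ℤ) := ((lrm_rZero hqN (∞ : OnePoint (ZMod q)) : Gamma0 N) : SL(2, ℤ)) with hs
  set c : SL(2, ℤ) := ((lrnew_c0 hqN : Gamma0 N) : SL(2, ℤ)) with hc
  have hW : heckeMatrix q 0 * mapGL ℝ s = mapGL ℝ c * heckeDiagMatrix q := lrnew_W_eq hqN
  have e := fun i j => congrArg (fun M : GL (Fin 2) ℝ => (M : Matrix (Fin 2) (Fin 2) ℝ) i j) hW
  have e10 := e 1 0
  have e11 := e 1 1
  simp [hq, Matrix.mul_apply, Fin.sum_univ_two] at e10 e11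
  have h10 : c 1 0 = s 1 0 := by
    have : (q : ℝ) * ((c 1 0 : ℤ) : ℝ) = (q : ℝ) * ((s 1 0 : ℤ) : ℝ) := by linarith
    exact_mod_cast mul_left_cancel₀ hqR this
  have h11 : c 1 1 = q * s 1 1 := by exact_mod_cast e11.symm
  -- `q ∣ s 0 0` since `s` moves `0` to `∞`
  have hact : t2c_act s ((0 : ZMod q) : OnePoint (ZMod q)) = ∞ := lrm_rZero_spec hqN _
  have hs00 : ((s 0 0 : ℤ) : ZMod q) = 0 := by
    rw [t2c_act, OnePoint.smul_some_eq_ite, redMatrix_apply_one_zero, redMatrix_apply_one_one,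
      mul_zero, zero_add] at hact
    by_contra hne
    rw [if_neg hne] at hact
    exact OnePoint.coe_ne_infty _ hact
  have hdet := congrArg (Int.cast : ℤ → ZMod q) (det_eq s)
  push_cast at hdet
  rw [hs00, zero_mul, zero_sub] at hdet
  have hs10 : ((s 1 0 : ℤ) : ZMod q) ≠ 0 := by
    intro h0
    rw [h0, mul_zero, neg_zero] at hdet
    exact zero_ne_one hdet
  show t2c_act c (∞ : OnePoint (ZMod q)) = _
  rw [t2c_act, OnePoint.smul_infty_eq_ite, redMatrix_apply_one_zero, redMatrix_apply_zero_zero,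
    h10, h11, if_neg hs10]
  push_cast
  simp

/-- `W · [[1, n], [0, q]] = q · (c₀ · [[1, n], [0, 1]])` entrywise -/
theorem lrnew_W_mul_heckeMatrix (hqN : ¬ q ∣ N) (n : ℕ) (i k : Fin 2) :
    (lrnew_W hqN * heckeMatrix q n : GL (Fin 2) ℝ) i k =
      (q : ℝ) * (mapGL ℝ (((lrnew_c0 hqN * lrnew_t N n : Gamma0 N)) : SL(2, ℤ)) : GL (Fin 2) ℝ) i k := by
  have hq : q ≠ 0 := (Fact.out : q.Prime).ne_zero
  rw [lrnew_W_eq, Subgroup.coe_mul, map_mul]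
  set c : SL(2, ℤ) := ((lrnew_c0 hqN : Gamma0 N) : SL(2, ℤ)) with hc
  have ht : ∀ a b : Fin 2, (((lrnew_t N n : Gamma0 N) : SL(2, ℤ)) a b : ℤ) =
      (!![1, (n : ℤ); 0, 1] : Matrix (Fin 2) (Fin 2) ℤ) a b := fun a b => rfl
  fin_cases i <;> fin_cases k <;>
    simp [hq, Matrix.mul_apply, Fin.sum_univ_two, ht] <;> ring

/-- **(I)** `trA g = g + U_q (g ∣ W)` -/
theorem lrnew_trA_eq (hqN : ¬ q ∣ N) {g : ℍ → ℂ} (hg : lrnew_Inv (N * q) g) :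
    lrnew_trA hqN g = g + heckeU 2 q (g ∣[(2 : ℤ)] lrnew_W hqN) := by
  have hqpos : (0 : ℝ) < q := by exact_mod_cast (Fact.out : q.Prime).pos
  rw [lrnew_trA, heckeU_eq_sum_zmod]
  rw [show (∑ x : OnePoint (ZMod q), g ∣[(2 : ℤ)]
      (mapGL ℝ ((lrm_rInf hqN x : Gamma0 N) : SL(2, ℤ)))) =
      g ∣[(2 : ℤ)] (mapGL ℝ ((lrm_rInf hqN ∞ : Gamma0 N) : SL(2, ℤ))) +
      ∑ j : ZMod q, g ∣[(2 : ℤ)]
        (mapGL ℝ ((lrm_rInf hqN (j : OnePoint (ZMod q)) : Gamma0 N) : SL(2, ℤ))) from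
    Fintype.sum_option (fun x : OnePoint (ZMod q) => g ∣[(2 : ℤ)]
      (mapGL ℝ ((lrm_rInf hqN x : Gamma0 N) : SL(2, ℤ))))]
  congr 1
  · -- the representative of `∞` lies in `Γ₀(Nq)`
    have h1 : (lrm_data hqN).act (lrm_rInf hqN ∞) ∞ = (lrm_data hqN).act (1 : Gamma0 N) ∞ := by
      rw [lrm_rInf_spec, (lrm_data hqN).act_one]
    rw [lrnew_slash_eq_of_act_infty hqN hg _ _ h1, Subgroup.coe_one, map_one, SlashAction.slash_one]
  · refine Finset.sum_congr rfl fun j _ => ?_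
    rw [← SlashAction.slash_mul]
    have hdet : 0 < (mapGL ℝ (((lrnew_c0 hqN * lrnew_t N (j.val : ℤ) : Gamma0 N)) : SL(2, ℤ)) :
        GL (Fin 2) ℝ).det.val := by
      simp
    rw [lrnew_slash_eq_of_smul g hqpos hdet (lrnew_W_mul_heckeMatrix hqN j.val)]
    apply (lrnew_slash_eq_of_act_infty hqN hg _ _ _).symm
    rw [lrm_rInf_spec, (lrm_data hqN).act_mul, lrnew_act_c0, lrnew_act_t]
    push_cast
    rw [ZMod.natCast_zmod_val]

/-- **[NEW], function level**: on the `q`-new space (`trA g = 0 = trB g`), `U_q² = 1`. -/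
theorem lrnew_heckeU_sq (hqN : ¬ q ∣ N) {g : ℍ → ℂ} (hg : lrnew_Inv (N * q) g)
    (hA : lrnew_trA hqN g = 0) (hB : lrnew_trB hqN g = 0) :
    heckeU 2 q (heckeU 2 q g) = g := by
  rw [lrnew_trA_eq hqN hg] at hA
  rw [lrnew_trB_eq hqN hg] at hB
  have h1 : heckeU 2 q g = -(g ∣[(2 : ℤ)] lrnew_W hqN) := by
    rw [eq_neg_iff_add_eq_zero, add_comm]; exact hB
  have h2 : g = -(heckeU 2 q (g ∣[(2 : ℤ)] lrnew_W hqN)) := by
    rw [eq_neg_iff_add_eq_zero]; exact hA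
  rw [h1, heckeU_neg, ← h2]

end Fermat.Agent.LR
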