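/-
LR node [NEW], part 3: the trace maps of `Core.lean` as linear maps of cusp forms

  `lrnew_trALin hqN, lrnew_trBLin hqN : S₂(Γ₀(Nq)) →ₗ[ℂ] S₂(Γ₀(N))`

with `⇑(lrnew_trALin hqN g) = lrnew_trA hqN ⇑g`, `⇑(lrnew_trBLin hqN g) = lrnew_trB hqN ⇑g` by `rfl`.
-/
import Fermat.Agent.LR.NEW.Core
import Fermat.Prelude.Sol.S_CuspFormClass_isZeroAt_heckeU

set_option autoImplicit false

noncomputable section

open CongruenceSubgroup Matrix.SpecialLinearGroup UpperHalfPlane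
open P2MW.S_ModularForm_heckeT_slash_eq_self_of_mem_Gamma0.ModularForm.HeckeSlashInvariance
open scoped MatrixGroups OnePoint ModularForm Manifold
open Fermat.Agent.JT3 ModularForm

namespace Fermat.Agent.LR

variable {N : ℕ} {q : ℕ} [Fact q.Prime]

/-! ### Invariance under `Γ₀(N)` -/

theorem lrnew_trA_inv (hqN : ¬ q ∣ N) {g : ℍ → ℂ} (hg : lrnew_Inv (N * q) g) :
    lrnew_Inv N (lrnew_trA hqN g) := by
  rintro _ ⟨γ, hγ, rfl⟩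
  rw [lrnew_trA, SlashAction.sum_slash]
  have hterm : ∀ x : OnePoint (ZMod q),
      (g ∣[(2 : ℤ)] (mapGL ℝ ((lrm_rInf hqN x : Gamma0 N) : SL(2, ℤ)))) ∣[(2 : ℤ)] (mapGL ℝ γ) =
      g ∣[(2 : ℤ)] (mapGL ℝ ((lrm_rInf hqN ((lrm_data hqN).act ⟨γ, hγ⟩ x) : Gamma0 N) : SL(2, ℤ))) := by
    intro x
    rw [← SlashAction.slash_mul, ← map_mul]
    have := lrnew_slash_eq_of_act_infty hqN hg (lrm_rInf hqN x * ⟨γ, hγ⟩)
      (lrm_rInf hqN ((lrm_data hqN).act ⟨γ, hγ⟩ x))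
      (by rw [(lrm_data hqN).act_mul, lrm_rInf_spec, lrm_rInf_spec])
    rw [Subgroup.coe_mul] at this
    exact this
  rw [Finset.sum_congr rfl fun x _ => hterm x]
  exact Equiv.sum_comp (lrt_perm (lrm_data hqN) ⟨γ, hγ⟩)
    (fun x => g ∣[(2 : ℤ)] (mapGL ℝ ((lrm_rInf hqN x : Gamma0 N) : SL(2, ℤ))))

/-- `g ∣ diag(1,q)` is invariant under the stabiliser of `0` -/
theorem lrnew_slashD_eq_of_act_zero (hqN : ¬ q ∣ N) {g : ℍ → ℂ} (hg : lrnew_Inv (N * q) g)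
    (γ₁ γ₂ : Gamma0 N)
    (h : (lrm_data hqN).act γ₁ ((0 : ZMod q) : OnePoint (ZMod q)) =
      (lrm_data hqN).act γ₂ ((0 : ZMod q) : OnePoint (ZMod q))) :
    (g ∣[(2 : ℤ)] heckeMatrix q 0) ∣[(2 : ℤ)] (mapGL ℝ (γ₁ : SL(2, ℤ))) =
      (g ∣[(2 : ℤ)] heckeMatrix q 0) ∣[(2 : ℤ)] (mapGL ℝ (γ₂ : SL(2, ℤ))) := by
  have h1 : (lrm_data hqN).act (γ₁ * γ₂⁻¹) ((0 : ZMod q) : OnePoint (ZMod q)) =
      ((0 : ZMod q) : OnePoint (ZMod q)) := by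
    rw [(lrm_data hqN).act_mul, h, lrt_act_inv]
  set s : lrt_stab (lrm_data hqN) ((0 : ZMod q) : OnePoint (ZMod q)) := ⟨γ₁ * γ₂⁻¹, h1⟩ with hs
  have hspec := t2c_coc_spec hqN ((0 : ZMod q) : OnePoint (ZMod q)) (γ₁ * γ₂⁻¹)
  have h1' : t2c_act ((γ₁ * γ₂⁻¹ : Gamma0 N) : SL(2, ℤ)) ((0 : ZMod q) : OnePoint (ZMod q)) =
      ((0 : ZMod q) : OnePoint (ZMod q)) := h1
  rw [h1', lrm_heckeRep_zero] at hspec
  have hc : ((t2c_coc hqN ((0 : ZMod q) : OnePoint (ZMod q)) (γ₁ * γ₂⁻¹) : Gamma0 N) : SL(2, ℤ)) ∈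
      Gamma0 (N * q) := by
    have := (lrm_gamZero hqN s).2
    rw [lrm_gamZero_coe] at this
    exact this
  have h4 : (γ₁ : SL(2, ℤ)) = ((γ₁ * γ₂⁻¹ : Gamma0 N) : SL(2, ℤ)) * (γ₂ : SL(2, ℤ)) := by
    rw [← Subgroup.coe_mul, inv_mul_cancel_right]
  have h5 : (g ∣[(2 : ℤ)] heckeMatrix q 0) ∣[(2 : ℤ)]
      (mapGL ℝ ((γ₁ * γ₂⁻¹ : Gamma0 N) : SL(2, ℤ))) = g ∣[(2 : ℤ)] heckeMatrix q 0 := by
    rw [← SlashAction.slash_mul, hspec, SlashAction.slash_mul, hg.slash_mapGL hc]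
  rw [h4, map_mul, SlashAction.slash_mul, h5]

theorem lrnew_trB_inv (hqN : ¬ q ∣ N) {g : ℍ → ℂ} (hg : lrnew_Inv (N * q) g) :
    lrnew_Inv N (lrnew_trB hqN g) := by
  rintro _ ⟨γ, hγ, rfl⟩
  rw [lrnew_trB, SlashAction.sum_slash]
  have hterm : ∀ x : OnePoint (ZMod q),
      ((g ∣[(2 : ℤ)] heckeMatrix q 0) ∣[(2 : ℤ)]
        (mapGL ℝ ((lrm_rZero hqN x : Gamma0 N) : SL(2, ℤ)))) ∣[(2 : ℤ)] (mapGL ℝ γ) =
      (g ∣[(2 : ℤ)] heckeMatrix q 0) ∣[(2 : ℤ)]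
        (mapGL ℝ ((lrm_rZero hqN ((lrm_data hqN).act ⟨γ, hγ⟩ x) : Gamma0 N) : SL(2, ℤ))) := by
    intro x
    rw [← SlashAction.slash_mul, ← map_mul]
    have := lrnew_slashD_eq_of_act_zero hqN hg (lrm_rZero hqN x * ⟨γ, hγ⟩)
      (lrm_rZero hqN ((lrm_data hqN).act ⟨γ, hγ⟩ x))
      (by rw [(lrm_data hqN).act_mul, lrm_rZero_spec, lrm_rZero_spec])
    rw [Subgroup.coe_mul] at this
    exact this
  rw [Finset.sum_congr rfl fun x _ => hterm x]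
  exact Equiv.sum_comp (lrt_perm (lrm_data hqN) ⟨γ, hγ⟩)
    (fun x => (g ∣[(2 : ℤ)] heckeMatrix q 0) ∣[(2 : ℤ)]
      (mapGL ℝ ((lrm_rZero hqN x : Gamma0 N) : SL(2, ℤ))))

/-! ### Holomorphy -/

theorem lrnew_trA_mdiff (hqN : ¬ q ∣ N) {g : ℍ → ℂ} (hg : MDifferentiable 𝓘(ℂ) 𝓘(ℂ) g) :
    MDifferentiable 𝓘(ℂ) 𝓘(ℂ) (lrnew_trA hqN g) :=
  Finset.sum_induction _ (fun f : ℍ → ℂ => MDifferentiable 𝓘(ℂ) 𝓘(ℂ) f)
    (fun _ _ ha hb => ha.add hb) mdifferentiable_const (fun _ _ => hg.slash 2 _)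

theorem lrnew_trB_mdiff (hqN : ¬ q ∣ N) {g : ℍ → ℂ} (hg : MDifferentiable 𝓘(ℂ) 𝓘(ℂ) g) :
    MDifferentiable 𝓘(ℂ) 𝓘(ℂ) (lrnew_trB hqN g) :=
  Finset.sum_induction _ (fun f : ℍ → ℂ => MDifferentiable 𝓘(ℂ) 𝓘(ℂ) f)
    (fun _ _ ha hb => ha.add hb) mdifferentiable_const (fun _ _ => (hg.slash 2 _).slash 2 _)

/-! ### Vanishing at the cusps -/

open P2MW.S_CuspFormClass_isZeroAt_heckeU.ModularForm.S06W2 in
/-- a cusp form for an arithmetic group, slashed by `A · γ` with `A` rational and `γ ∈ SL(2, ℤ)`,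
vanishes at every cusp of `SL(2, ℤ)` -/
theorem lrnew_isZeroAt_slash_rat {Γ : Subgroup (GL (Fin 2) ℝ)} [Γ.IsArithmetic] {k : ℤ}
    {F : Type*} [FunLike F ℍ ℂ] [CuspFormClass F Γ k] (f : F) (A : GL (Fin 2) ℚ) (γ : SL(2, ℤ))
    {c : OnePoint ℝ} (hc : IsCusp c 𝒮ℒ) :
    c.IsZeroAt ((⇑f ∣[k] (Matrix.GeneralLinearGroup.map (Rat.castHom ℝ) A)) ∣[k] (mapGL ℝ γ)) k := by
  have hc' : IsCusp c Γ := (Subgroup.IsArithmetic.isCusp_iff_isCusp_SL2Z Γ).mpr hc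
  have h1 : (mapGL ℝ γ : GL (Fin 2) ℝ) =
      Matrix.GeneralLinearGroup.map (Rat.castHom ℝ) (mapGL ℚ γ) := by
    ext i j
    simp
  rw [← SlashAction.slash_mul, h1, ← map_mul]
  exact isZeroAt_slash_ratCast f (A * mapGL ℚ γ) hc'

theorem lrnew_heckeMatrix_rat (n : ℕ) :
    ∃ A : GL (Fin 2) ℚ, heckeMatrix q n = Matrix.GeneralLinearGroup.map (Rat.castHom ℝ) A := by
  have hq : q ≠ 0 := (Fact.out : q.Prime).ne_zero
  refine ⟨Matrix.GeneralLinearGroup.mkOfDetNeZero !![1, (n : ℚ); 0, (q : ℚ)]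
    (by rw [Matrix.det_fin_two_of]; simpa using hq), ?_⟩
  ext i j
  fin_cases i <;> fin_cases j <;>
    simp [val_heckeMatrix hq, Matrix.GeneralLinearGroup.mkOfDetNeZero]

open P2MW.S_CuspFormClass_isZeroAt_heckeU.ModularForm.S06W2 in
theorem lrnew_trA_isZeroAt [NeZero N] (hqN : ¬ q ∣ N) (g : CuspForm (Gamma0 (N * q)) 2)
    {c : OnePoint ℝ} (hc : IsCusp c (Gamma0 N : Subgroup (GL (Fin 2) ℝ))) :
    c.IsZeroAt (lrnew_trA hqN ⇑g) 2 := by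
  have : NeZero (N * q) := ⟨Nat.mul_ne_zero (NeZero.ne N) (Fact.out : q.Prime).ne_zero⟩
  have hc' : IsCusp c 𝒮ℒ := (Subgroup.IsArithmetic.isCusp_iff_isCusp_SL2Z _).mp hc
  rw [lrnew_trA]
  refine isZeroAt_sum _ fun x _ => ?_
  have := lrnew_isZeroAt_slash_rat g (1 : GL (Fin 2) ℚ)
    ((lrm_rInf hqN x : Gamma0 N) : SL(2, ℤ)) hc'
  rwa [map_one, SlashAction.slash_one] at this

open P2MW.S_CuspFormClass_isZeroAt_heckeU.ModularForm.S06W2 in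
theorem lrnew_trB_isZeroAt [NeZero N] (hqN : ¬ q ∣ N) (g : CuspForm (Gamma0 (N * q)) 2)
    {c : OnePoint ℝ} (hc : IsCusp c (Gamma0 N : Subgroup (GL (Fin 2) ℝ))) :
    c.IsZeroAt (lrnew_trB hqN ⇑g) 2 := by
  have : NeZero (N * q) := ⟨Nat.mul_ne_zero (NeZero.ne N) (Fact.out : q.Prime).ne_zero⟩
  have hc' : IsCusp c 𝒮ℒ := (Subgroup.IsArithmetic.isCusp_iff_isCusp_SL2Z _).mp hc
  rw [lrnew_trB]
  obtain ⟨A, hA⟩ := lrnew_heckeMatrix_rat (q := q) 0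
  refine isZeroAt_sum _ fun x _ => ?_
  rw [hA]
  exact lrnew_isZeroAt_slash_rat g A ((lrm_rZero hqN x : Gamma0 N) : SL(2, ℤ)) hc'

/-! ### Linearity -/

theorem lrnew_σ_mapGL (γ : SL(2, ℤ)) : σ (mapGL ℝ γ : GL (Fin 2) ℝ) = .refl ℝ ℂ := by
  rw [σ, if_pos (by simp)]

theorem lrnew_trA_add (hqN : ¬ q ∣ N) (f g : ℍ → ℂ) :
    lrnew_trA hqN (f + g) = lrnew_trA hqN f + lrnew_trA hqN g := by
  simp only [lrnew_trA, SlashAction.add_slash, Finset.sum_add_distrib]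

theorem lrnew_trB_add (hqN : ¬ q ∣ N) (f g : ℍ → ℂ) :
    lrnew_trB hqN (f + g) = lrnew_trB hqN f + lrnew_trB hqN g := by
  simp only [lrnew_trB, SlashAction.add_slash, Finset.sum_add_distrib]

theorem lrnew_trA_smul (hqN : ¬ q ∣ N) (c : ℂ) (f : ℍ → ℂ) :
    lrnew_trA hqN (c • f) = c • lrnew_trA hqN f := by
  simp only [lrnew_trA, ModularForm.smul_slash, lrnew_σ_mapGL, ContinuousAlgEquiv.refl_apply,
    Finset.smul_sum]

theorem lrnew_trB_smul (hqN : ¬ q ∣ N) (c : ℂ) (f : ℍ → ℂ) :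
    lrnew_trB hqN (c • f) = c • lrnew_trB hqN f := by
  simp only [lrnew_trB, ModularForm.smul_slash, lrnew_σ_mapGL, σ_heckeMatrix,
    ContinuousAlgEquiv.refl_apply, Finset.smul_sum]

/-! ### The trace maps on cusp forms -/

/-- `A_*` on cusp forms: the trace `S₂(Γ₀(Nq)) → S₂(Γ₀(N))` -/
def lrnew_trALin [NeZero N] (hqN : ¬ q ∣ N) :
    CuspForm (Gamma0 (N * q)) 2 →ₗ[ℂ] CuspForm (Gamma0 N) 2 where
  toFun g :=
    { toFun := lrnew_trA hqN ⇑g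
      slash_action_eq' := fun γ hγ =>
        lrnew_trA_inv hqN (fun γ' hγ' => SlashInvariantFormClass.slash_action_eq g γ' hγ') γ hγ
      holo' := lrnew_trA_mdiff hqN (CuspFormClass.holo g)
      zero_at_cusps' := fun hc => lrnew_trA_isZeroAt hqN g hc }
  map_add' f g := DFunLike.coe_injective <| by
    show lrnew_trA hqN ⇑(f + g) = lrnew_trA hqN ⇑f + lrnew_trA hqN ⇑g
    rw [FunLike.coe_add, lrnew_trA_add]
  map_smul' c f := DFunLike.coe_injective <| by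
    show lrnew_trA hqN ⇑(c • f) = c • lrnew_trA hqN ⇑f
    rw [FunLike.coe_smul, lrnew_trA_smul]

/-- `B_*` on cusp forms: the trace along `β` -/
def lrnew_trBLin [NeZero N] (hqN : ¬ q ∣ N) :
    CuspForm (Gamma0 (N * q)) 2 →ₗ[ℂ] CuspForm (Gamma0 N) 2 where
  toFun g :=
    { toFun := lrnew_trB hqN ⇑g
      slash_action_eq' := fun γ hγ =>
        lrnew_trB_inv hqN (fun γ' hγ' => SlashInvariantFormClass.slash_action_eq g γ' hγ') γ hγ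
      holo' := lrnew_trB_mdiff hqN (CuspFormClass.holo g)
      zero_at_cusps' := fun hc => lrnew_trB_isZeroAt hqN g hc }
  map_add' f g := DFunLike.coe_injective <| by
    show lrnew_trB hqN ⇑(f + g) = lrnew_trB hqN ⇑f + lrnew_trB hqN ⇑g
    rw [FunLike.coe_add, lrnew_trB_add]
  map_smul' c f := DFunLike.coe_injective <| by
    show lrnew_trB hqN ⇑(c • f) = c • lrnew_trB hqN ⇑f
    rw [FunLike.coe_smul, lrnew_trB_smul]

@[simp] theorem lrnew_coe_trALin [NeZero N] (hqN : ¬ q ∣ N) (g : CuspForm (Gamma0 (N * q)) 2) :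
    ⇑(lrnew_trALin hqN g) = lrnew_trA hqN ⇑g := rfl

@[simp] theorem lrnew_coe_trBLin [NeZero N] (hqN : ¬ q ∣ N) (g : CuspForm (Gamma0 (N * q)) 2) :
    ⇑(lrnew_trBLin hqN g) = lrnew_trB hqN ⇑g := rfl

end Fermat.Agent.LR
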