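/-
LR [NEW]/[TOP] utility: complex conjugation on the ring of algebraic integers
`integralClosure ℤ ℂ`, and transport of a "congruence package"
`(b, 𝔪')` (eigenvalues `b l`, maximal ideal `𝔪'` over `p`, `b l - a l ∈ 𝔪'` with `a l : ℤ`)
to the conjugate package `(conj ∘ b, conj 𝔪')`.

Needed by the assembly of S41 when the level-raised eigenvector lands in the
anti-holomorphic (`ι`-minus) component of the period pairing: the eigenform found there has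
Hecke eigenvalues `conj (b l)`.
-/
import Mathlib

set_option autoImplicit false

namespace Fermat.Agent.LR

/-- Complex conjugation as a ring automorphism of the ring of algebraic integers in `ℂ`. -/
noncomputable def lrnew_conjInt : integralClosure ℤ ℂ ≃+* integralClosure ℤ ℂ where
  toFun a := ⟨starRingEnd ℂ (a : ℂ), by
    have h : IsIntegral ℤ (a : ℂ) := a.2
    exact h.map ((Complex.conjAe : ℂ ≃ₐ[ℝ] ℂ).toAlgHom.restrictScalars ℤ)⟩
  invFun a := ⟨starRingEnd ℂ (a : ℂ), by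
    have h : IsIntegral ℤ (a : ℂ) := a.2
    exact h.map ((Complex.conjAe : ℂ ≃ₐ[ℝ] ℂ).toAlgHom.restrictScalars ℤ)⟩
  left_inv a := Subtype.ext (Complex.conj_conj _)
  right_inv a := Subtype.ext (Complex.conj_conj _)
  map_mul' a b := Subtype.ext (map_mul (starRingEnd ℂ) _ _)
  map_add' a b := Subtype.ext (map_add (starRingEnd ℂ) _ _)

@[simp] theorem lrnew_conjInt_coe (a : integralClosure ℤ ℂ) :
    ((lrnew_conjInt a : integralClosure ℤ ℂ) : ℂ) = starRingEnd ℂ (a : ℂ) := rfl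

theorem lrnew_conjInt_conjInt (a : integralClosure ℤ ℂ) :
    lrnew_conjInt (lrnew_conjInt a) = a :=
  Subtype.ext (Complex.conj_conj _)

theorem lrnew_conjInt_intCast (n : ℤ) :
    lrnew_conjInt ((n : ℤ) : integralClosure ℤ ℂ) = ((n : ℤ) : integralClosure ℤ ℂ) :=
  map_intCast lrnew_conjInt n

theorem lrnew_conjInt_natCast (n : ℕ) :
    lrnew_conjInt ((n : ℕ) : integralClosure ℤ ℂ) = ((n : ℕ) : integralClosure ℤ ℂ) :=
  map_natCast lrnew_conjInt n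

/-- The conjugate of an ideal of the ring of algebraic integers. -/
noncomputable def lrnew_conjIdeal (𝔪 : Ideal (integralClosure ℤ ℂ)) :
    Ideal (integralClosure ℤ ℂ) :=
  Ideal.comap (lrnew_conjInt : integralClosure ℤ ℂ →+* integralClosure ℤ ℂ) 𝔪

theorem lrnew_mem_conjIdeal (𝔪 : Ideal (integralClosure ℤ ℂ)) (x : integralClosure ℤ ℂ) :
    x ∈ lrnew_conjIdeal 𝔪 ↔ lrnew_conjInt x ∈ 𝔪 := Iff.rfl

theorem lrnew_conjInt_mem_conjIdeal (𝔪 : Ideal (integralClosure ℤ ℂ))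
    (x : integralClosure ℤ ℂ) : lrnew_conjInt x ∈ lrnew_conjIdeal 𝔪 ↔ x ∈ 𝔪 := by
  rw [lrnew_mem_conjIdeal, lrnew_conjInt_conjInt]

theorem lrnew_conjIdeal_isMaximal (𝔪 : Ideal (integralClosure ℤ ℂ)) (h : 𝔪.IsMaximal) :
    (lrnew_conjIdeal 𝔪).IsMaximal :=
  Ideal.comap_isMaximal_of_surjective
    (lrnew_conjInt : integralClosure ℤ ℂ →+* integralClosure ℤ ℂ) lrnew_conjInt.surjective

theorem lrnew_natCast_mem_conjIdeal (𝔪 : Ideal (integralClosure ℤ ℂ)) (p : ℕ)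
    (h : ((p : ℕ) : integralClosure ℤ ℂ) ∈ 𝔪) :
    ((p : ℕ) : integralClosure ℤ ℂ) ∈ lrnew_conjIdeal 𝔪 := by
  rw [lrnew_mem_conjIdeal, lrnew_conjInt_natCast]; exact h

/-- **Conjugate congruence package.**  From `(b, 𝔪')` with `b l - a l ∈ 𝔪'`, `a l ∈ ℤ`, get
`(b', 𝔪'')` with `b' l = conj (b l)` in `ℂ` and `b' l - a l ∈ 𝔪''`. -/
theorem lrnew_conj_package {I : Type*} (p : ℕ) (a : I → ℤ) (b : I → integralClosure ℤ ℂ)
    (𝔪' : Ideal (integralClosure ℤ ℂ)) (hmax : 𝔪'.IsMaximal)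
    (hp : ((p : ℕ) : integralClosure ℤ ℂ) ∈ 𝔪')
    (hb : ∀ l, b l - ((a l : ℤ) : integralClosure ℤ ℂ) ∈ 𝔪') :
    ∃ (b' : I → integralClosure ℤ ℂ) (𝔪'' : Ideal (integralClosure ℤ ℂ)),
      (∀ l, ((b' l : integralClosure ℤ ℂ) : ℂ) = starRingEnd ℂ ((b l : integralClosure ℤ ℂ) : ℂ)) ∧
      𝔪''.IsMaximal ∧ ((p : ℕ) : integralClosure ℤ ℂ) ∈ 𝔪'' ∧
      ∀ l, b' l - ((a l : ℤ) : integralClosure ℤ ℂ) ∈ 𝔪'' := by
  refine ⟨fun l => lrnew_conjInt (b l), lrnew_conjIdeal 𝔪', fun l => rfl,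
    lrnew_conjIdeal_isMaximal 𝔪' hmax, lrnew_natCast_mem_conjIdeal 𝔪' p hp, fun l => ?_⟩
  rw [← lrnew_conjInt_intCast (a l), ← map_sub, lrnew_conjInt_mem_conjIdeal]
  exact hb l

end Fermat.Agent.LR
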