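/-
LR node [NEW], part 2 (consumer of [EIG]).

From ONE nonzero cusp form `g₀` of level `M` (`q ∣ M`) which is an eigenvector of the good Hecke
operators `T_ℓ` (`ℓ ∤ M`, `ℓ ∉ S`) with eigenvalues `θ ℓ` and satisfies `U_q² g₀ = g₀`, we get a
normalised eigenform `g` of level `M` with `a_ℓ(g) = θ ℓ` for those `ℓ` and `a_q(g)² = 1`
(`CuspForm.IsNewAt q`).

No stability of a "new subspace" under the Hecke operators is needed: the subspace
`{g | T_ℓ g = θ ℓ • g (good ℓ), U_q² g = g}` is stable under every `T_ℓ`, `U_ℓ` because all these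
operators commute (prelude), and it is nonzero because it contains `g₀`.
-/
import Fermat.Agent.LR.EIG.Main
import Fermat.Prelude.Def_FreyPackage_LevelRaising

set_option autoImplicit false

open CuspForm CongruenceSubgroup ModularFormClass UpperHalfPlane
open Fermat.Agent.S49

namespace Fermat.Agent.LR

noncomputable section

variable {M : ℕ} [NeZero M]

/-- the subspace `{g | U_q² g = g}` of `S₂(Γ₀(M))`, `q ∣ M` -/
def lrnew_sqSub {q : ℕ} (hqM : q ∣ M) : Submodule ℂ (CuspForm (Gamma0 M) 2) :=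
  LinearMap.ker ((heckeULin 2 hqM) ∘ₗ (heckeULin 2 hqM) - LinearMap.id)

theorem lrnew_mem_sqSub {q : ℕ} (hqM : q ∣ M) (g : CuspForm (Gamma0 M) 2) :
    g ∈ lrnew_sqSub hqM ↔ heckeULin 2 hqM (heckeULin 2 hqM g) = g := by
  rw [lrnew_sqSub, LinearMap.mem_ker, LinearMap.sub_apply, LinearMap.comp_apply,
    LinearMap.id_apply, sub_eq_zero]

theorem lrnew_sqSub_stable_T {q : ℕ} (hqM : q ∣ M) {ℓ : ℕ} (hℓ : ℓ.Prime) (hℓM : ¬ ℓ ∣ M)
    (g : CuspForm (Gamma0 M) 2) (hg : g ∈ lrnew_sqSub hqM) :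
    heckeTLin 2 hℓ hℓM g ∈ lrnew_sqSub hqM := by
  rw [lrnew_mem_sqSub] at hg ⊢
  have hcomm := (heckeTLin_heckeULin_comm (N := M) 2 hℓ hℓM hqM).eq
  have h1 : ∀ f, heckeULin 2 hqM (heckeTLin 2 hℓ hℓM f) = heckeTLin 2 hℓ hℓM (heckeULin 2 hqM f) :=
    fun f => (congrArg (fun F => F f) hcomm).symm
  rw [h1, h1, hg]

theorem lrnew_sqSub_stable_U {q : ℕ} (hqM : q ∣ M) {ℓ : ℕ} (hℓM : ℓ ∣ M)
    (g : CuspForm (Gamma0 M) 2) (hg : g ∈ lrnew_sqSub hqM) :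
    heckeULin 2 hℓM g ∈ lrnew_sqSub hqM := by
  rw [lrnew_mem_sqSub] at hg ⊢
  have hcomm := (heckeULin_comm (N := M) 2 hqM hℓM).eq
  have h1 : ∀ f, heckeULin 2 hqM (heckeULin 2 hℓM f) = heckeULin 2 hℓM (heckeULin 2 hqM f) :=
    fun f => congrArg (fun F => F f) hcomm
  rw [h1, h1, hg]

/-- **[NEW], eigenform form**: one nonzero `g₀` with the good eigenvalues `θ` and `U_q² g₀ = g₀`
yields a normalised eigenform with the same good eigenvalues which is new at `q`. -/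
theorem lrnew_exists_eigenform {q : ℕ} (hq : q.Prime) (hqM : q ∣ M) (S : Set ℕ) (θ : ℕ → ℂ)
    (g₀ : CuspForm (Gamma0 M) 2) (hg₀ : g₀ ≠ 0)
    (hθ : ∀ (ℓ : ℕ) (hℓ : ℓ.Prime) (hℓM : ¬ ℓ ∣ M), ℓ ∉ S → heckeTLin 2 hℓ hℓM g₀ = θ ℓ • g₀)
    (hU : heckeULin 2 hqM (heckeULin 2 hqM g₀) = g₀) :
    ∃ g : CuspForm (Gamma0 M) 2, g.IsNormalizedEigenform ∧
      (∀ ℓ : ℕ, ℓ.Prime → ¬ ℓ ∣ M → ℓ ∉ S → qCoeff ⇑g ℓ = θ ℓ) ∧ g.IsNewAt q := by
  have hne : lreig_charSub (lrnew_sqSub hqM) S θ ≠ ⊥ := by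
    intro hb
    apply hg₀
    have : g₀ ∈ lreig_charSub (lrnew_sqSub hqM) S θ :=
      lreig_mem_charSub.mpr ⟨(lrnew_mem_sqSub hqM g₀).mpr hU, hθ⟩
    rw [hb] at this
    simpa using this
  obtain ⟨g, hgW, hg, hgθ, -, hgU⟩ := lreig_main_char (lrnew_sqSub hqM) S θ hne
    (fun ℓ hℓ hℓM g hg => lrnew_sqSub_stable_T hqM hℓ hℓM g hg)
    (fun ℓ _ hℓM g hg => lrnew_sqSub_stable_U hqM hℓM g hg)
  refine ⟨g, hg, hgθ, ?_⟩
  -- `U_q g = a_q g` and `U_q² g = g` give `a_q² = 1`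
  have h1 := (lrnew_mem_sqSub hqM g).mp hgW
  rw [hgU q hq hqM, map_smul, hgU q hq hqM, smul_smul] at h1
  have h2 := congrArg (fun f : CuspForm (Gamma0 M) 2 => qCoeff ⇑f 1) h1
  simp only [qc_smul, hg.qCoeff_one, mul_one] at h2
  show qCoeff ⇑g q ^ 2 = 1
  rw [pow_two]
  exact h2

end

end Fermat.Agent.LR
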