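/-
LR node [NEW], assembly: a nonzero cusp form `g₀` of level `Nq` in the `q`-new space
(`trA g₀ = 0 = trB g₀`, function-level traces of `Core.lean`) which is an eigenvector of the good
Hecke operators with eigenvalues `θ` yields a normalised eigenform `g` of level `Nq` with the same
good eigenvalues and `a_q(g)² = 1` (`CuspForm.IsNewAt q`).
-/
import Fermat.Agent.LR.NEW.Core
import Fermat.Agent.LR.NEW.Eigen

set_option autoImplicit false

open CuspForm CongruenceSubgroup ModularFormClass UpperHalfPlane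
open scoped MatrixGroups ModularForm

namespace Fermat.Agent.LR

noncomputable section

variable {N : ℕ} {q : ℕ} [Fact q.Prime]

theorem lrnew_inv_coe (M : ℕ) (g : CuspForm (Gamma0 M) 2) : lrnew_Inv M ⇑g :=
  fun γ hγ => SlashInvariantFormClass.slash_action_eq g γ hγ

/-- `U_q² g = g` for a cusp form in the `q`-new space -/
theorem lrnew_heckeULin_sq [NeZero (N * q)] (hqN : ¬ q ∣ N) (g : CuspForm (Gamma0 (N * q)) 2)
    (hA : lrnew_trA hqN ⇑g = 0) (hB : lrnew_trB hqN ⇑g = 0) :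
    heckeULin 2 (Dvd.intro_left N rfl : q ∣ N * q)
      (heckeULin 2 (Dvd.intro_left N rfl : q ∣ N * q) g) = g := by
  apply DFunLike.coe_injective
  rw [CuspForm.coe_heckeULin_apply, CuspForm.coe_heckeULin_apply]
  exact lrnew_heckeU_sq hqN (lrnew_inv_coe _ g) hA hB

/-- **[NEW]**: from a nonzero `q`-new cusp form with good eigenvalues `θ` to a normalised eigenform
of level `Nq`, new at `q`, with the same good eigenvalues. -/
theorem lrnew_main [NeZero (N * q)] (hqN : ¬ q ∣ N) (S : Set ℕ) (θ : ℕ → ℂ)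
    (g₀ : CuspForm (Gamma0 (N * q)) 2) (hg₀ : g₀ ≠ 0)
    (hA : lrnew_trA hqN ⇑g₀ = 0) (hB : lrnew_trB hqN ⇑g₀ = 0)
    (hθ : ∀ (ℓ : ℕ) (hℓ : ℓ.Prime) (hℓM : ¬ ℓ ∣ N * q), ℓ ∉ S →
      heckeTLin 2 hℓ hℓM g₀ = θ ℓ • g₀) :
    ∃ g : CuspForm (Gamma0 (N * q)) 2, g.IsNormalizedEigenform ∧
      (∀ ℓ : ℕ, ℓ.Prime → ¬ ℓ ∣ N * q → ℓ ∉ S → qCoeff ⇑g ℓ = θ ℓ) ∧ g.IsNewAt q :=
  lrnew_exists_eigenform (Fact.out : q.Prime) (Dvd.intro_left N rfl) S θ g₀ hg₀ hθ
    (lrnew_heckeULin_sq hqN g₀ hA hB)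

end

end Fermat.Agent.LR
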