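/-
LR node [NEW], final form for the consumers ([ES] / [TOP]): the `q`-new space is
`ker (lrnew_trALin hqN) ⊓ ker (lrnew_trBLin hqN) ⊆ S₂(Γ₀(Nq))`; one nonzero element of it with the good
eigenvalues `θ` yields a normalised eigenform of level `Nq`, new at `q`, with good coefficients `θ`.
-/
import Fermat.Agent.LR.NEW.Main
import Fermat.Agent.LR.NEW.Trace

set_option autoImplicit false

open CuspForm CongruenceSubgroup ModularFormClass UpperHalfPlane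

namespace Fermat.Agent.LR

noncomputable section

variable {N : ℕ} {q : ℕ} [Fact q.Prime] [NeZero N]

/-- the `q`-new subspace of `S₂(Γ₀(Nq))` -/
def lrnew_newSub (hqN : ¬ q ∣ N) : Submodule ℂ (CuspForm (Gamma0 (N * q)) 2) :=
  LinearMap.ker (lrnew_trALin hqN) ⊓ LinearMap.ker (lrnew_trBLin hqN)

theorem lrnew_mem_newSub (hqN : ¬ q ∣ N) (g : CuspForm (Gamma0 (N * q)) 2) :
    g ∈ lrnew_newSub hqN ↔ lrnew_trALin hqN g = 0 ∧ lrnew_trBLin hqN g = 0 := by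
  rw [lrnew_newSub, Submodule.mem_inf, LinearMap.mem_ker, LinearMap.mem_ker]

theorem lrnew_instNeZero : NeZero (N * q) :=
  ⟨Nat.mul_ne_zero (NeZero.ne N) (Fact.out : q.Prime).ne_zero⟩

/-- `U_q² = 1` on the `q`-new subspace -/
theorem lrnew_heckeULin_sq_of_mem (hqN : ¬ q ∣ N) {g : CuspForm (Gamma0 (N * q)) 2}
    (hg : g ∈ lrnew_newSub hqN) :
    haveI := lrnew_instNeZero (N := N) (q := q)
    heckeULin 2 (Dvd.intro_left N rfl : q ∣ N * q)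
      (heckeULin 2 (Dvd.intro_left N rfl : q ∣ N * q) g) = g := by
  have := lrnew_instNeZero (N := N) (q := q)
  obtain ⟨hA, hB⟩ := (lrnew_mem_newSub hqN g).mp hg
  have hA' : lrnew_trA hqN ⇑g = 0 := by
    rw [← lrnew_coe_trALin, hA]; rfl
  have hB' : lrnew_trB hqN ⇑g = 0 := by
    rw [← lrnew_coe_trBLin, hB]; rfl
  exact lrnew_heckeULin_sq hqN g hA' hB'

/-- **[NEW], final form.** -/
theorem lrnew_final (hqN : ¬ q ∣ N) (S : Set ℕ) (θ : ℕ → ℂ)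
    (g₀ : CuspForm (Gamma0 (N * q)) 2) (hg₀ : g₀ ≠ 0) (hnew : g₀ ∈ lrnew_newSub hqN)
    (hθ : ∀ (ℓ : ℕ) (hℓ : ℓ.Prime) (hℓM : ¬ ℓ ∣ N * q), ℓ ∉ S →
      heckeTLin 2 hℓ hℓM g₀ = θ ℓ • g₀) :
    ∃ g : CuspForm (Gamma0 (N * q)) 2, g.IsNormalizedEigenform ∧
      (∀ ℓ : ℕ, ℓ.Prime → ¬ ℓ ∣ N * q → ℓ ∉ S → qCoeff ⇑g ℓ = θ ℓ) ∧ g.IsNewAt q := by
  have := lrnew_instNeZero (N := N) (q := q)
  obtain ⟨hA, hB⟩ := (lrnew_mem_newSub hqN g₀).mp hnew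
  have hA' : lrnew_trA hqN ⇑g₀ = 0 := by
    rw [← lrnew_coe_trALin, hA]; rfl
  have hB' : lrnew_trB hqN ⇑g₀ = 0 := by
    rw [← lrnew_coe_trBLin, hB]; rfl
  exact lrnew_main hqN S θ g₀ hg₀ hA' hB' hθ

end

end Fermat.Agent.LR
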